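/-
S13, package [Tp] (local analysis at `p`), layer 2: on the Kummer model
`y² = x³ + β x² + γ x` (landed S05 engine), for an automorphism `τ` of the points that acts
trivially on the residue field, `T - τ T` lies in the kernel of reduction `E₁` for every point `T`
of odd prime order `p` -- WITHOUT assuming that `p` is a unit (so also at the residue
characteristic `p`).
-/
import Mathlib
import Fermat.Agent.S05.ValMain
import Fermat.Agent.S05.ValEnd

set_option autoImplicit false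

namespace Fermat.Agent.S13.LocalP

open Fermat.Agent.S05

section
variable {G K Γ₀ : Type*} [AddCommGroup G] [Field K] [LinearOrderedCommGroupWithZero Γ₀]
  (D : KummerData G K) (v : Valuation K Γ₀)

/-- The kernel of reduction: the zero point and the points with non-integral `x`. -/
def InE1 (T : G) : Prop := T = 0 ∨ 1 < v (D.x T)

theorem inE1_zero : InE1 D v 0 := Or.inl rfl

theorem inE1_neg {T : G} (h : InE1 D v T) : InE1 D v (-T) := by
  rcases h with h | h
  · left; rw [h, neg_zero]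
  · right; rw [D.x_neg]; exact h

/-- Translating an integral point by a point of `E₁` gives an integral point. -/
theorem val_x_sub_le_one (hβ : v D.β ≤ 1) (hγ : v D.γ ≤ 1) {R S : G} (hR : R ≠ 0) (hS : S ≠ 0)
    (hxR : v (D.x R) ≤ 1) (hxS : 1 < v (D.x S)) : v (D.x (R - S)) ≤ 1 := by
  have hne : D.x R ≠ D.x S := by
    intro h
    rw [h] at hxR
    exact absurd hxR (not_le.mpr hxS)
  have hsub := D.sub_x R S hR hS hne
  have eS := D.eqn S hS
  have hyR : v (D.y R) ≤ 1 := val_y_le_one D v hR hβ hγ hxR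
  set a := D.x R with ha
  set b := D.x S with hb
  set c := D.y R with hc
  set d := D.y S with hd
  have hb1 : (1 : Γ₀) ≤ v b := hxS.le
  have hbpos : 0 < v b := lt_of_lt_of_le zero_lt_one hb1
  -- powers of `v b`
  have hb2 : v b ≤ v b ^ 2 := by
    calc v b = v b * 1 := (mul_one _).symm
      _ ≤ v b * v b := by gcongr
      _ = v b ^ 2 := (sq _).symm
  have hb12 : (1 : Γ₀) ≤ v b ^ 2 := hb1.trans hb2
  have hb3 : v b ^ 3 ≤ v b ^ 4 := by
    calc v b ^ 3 = v b ^ 3 * 1 := (mul_one _).symm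
      _ ≤ v b ^ 3 * v b := by gcongr
      _ = v b ^ 4 := (pow_succ (v b) 3).symm
  have hb23 : v b ^ 2 ≤ v b ^ 3 := by
    calc v b ^ 2 = v b ^ 2 * 1 := (mul_one _).symm
      _ ≤ v b ^ 2 * v b := by gcongr
      _ = v b ^ 3 := (pow_succ (v b) 2).symm
  -- valuation of `d`
  have hd2 : v d ^ 2 ≤ v b ^ 3 := by
    rw [← map_pow, eS]
    refine v.map_add_le (v.map_add_le ?_ ?_) ?_
    · rw [map_pow]
    · rw [map_mul, map_pow]
      calc v D.β * v b ^ 2 ≤ 1 * v b ^ 2 := by gcongr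
        _ = v b ^ 2 := one_mul _
        _ ≤ v b ^ 3 := hb23
    · rw [map_mul]
      calc v D.γ * v b ≤ 1 * v b := by gcongr
        _ = v b := one_mul _
        _ ≤ v b ^ 2 := hb2
        _ ≤ v b ^ 3 := hb23
  have hdb : v d ≤ v b ^ 2 := by
    by_contra hcon
    rw [not_le] at hcon
    have h1 : (v b ^ 2) ^ 2 < v d ^ 2 := pow_lt_pow_left₀ hcon zero_le (by norm_num)
    have h2 : (v b ^ 2) ^ 2 = v b ^ 4 := by rw [← pow_mul]
    rw [h2] at h1
    exact absurd (hd2.trans hb3) (not_le.mpr h1)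
  have h2le : v (2 : K) ≤ 1 := by
    have : (2 : K) = ((2 : ℕ) : K) := by norm_num
    rw [this]; exact val_natCast_le_one v 2
  -- the right-hand side of the subtraction formula
  have hrhs : (c + d) ^ 2 - (D.β + a + b) * (a - b) ^ 2 =
      c ^ 2 + 2 * c * d + D.γ * b - D.β * a ^ 2 + 2 * D.β * a * b - a ^ 3 + a ^ 2 * b
        + a * b ^ 2 := by
    linear_combination eS
  have hval : v ((c + d) ^ 2 - (D.β + a + b) * (a - b) ^ 2) ≤ v b ^ 2 := by
    rw [hrhs]
    refine v.map_add_le (v.map_add_le (v.map_sub_le (v.map_add_le (v.map_sub_le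
      (v.map_add_le (v.map_add_le ?_ ?_) ?_) ?_) ?_) ?_) ?_) ?_
    · rw [map_pow]
      exact (pow_le_one₀ zero_le hyR).trans hb12
    · rw [map_mul, map_mul]
      calc v 2 * v c * v d ≤ 1 * 1 * v b ^ 2 := by gcongr
        _ = v b ^ 2 := by simp
    · rw [map_mul]
      calc v D.γ * v b ≤ 1 * v b := by gcongr
        _ = v b := one_mul _
        _ ≤ v b ^ 2 := hb2
    · rw [map_mul, map_pow]
      calc v D.β * v a ^ 2 ≤ 1 * 1 ^ 2 := by gcongr
        _ = 1 := by simp
        _ ≤ v b ^ 2 := hb12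
    · rw [map_mul, map_mul, map_mul]
      calc v 2 * v D.β * v a * v b ≤ 1 * 1 * 1 * v b := by gcongr
        _ = v b := by simp
        _ ≤ v b ^ 2 := hb2
    · rw [map_pow]
      exact (pow_le_one₀ zero_le hxR).trans hb12
    · rw [map_mul, map_pow]
      calc v a ^ 2 * v b ≤ 1 ^ 2 * v b := by gcongr
        _ = v b := by simp
        _ ≤ v b ^ 2 := hb2
    · rw [map_mul, map_pow]
      calc v a * v b ^ 2 ≤ 1 * v b ^ 2 := by gcongr
        _ = v b ^ 2 := one_mul _
  have hab : v (a - b) = v b := by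
    rw [v.map_sub_swap]
    exact v.map_sub_eq_of_lt_left (lt_of_le_of_lt hxR hxS)
  have h3 := congrArg v hsub
  rw [map_mul, map_pow, hab] at h3
  by_contra hcon
  rw [not_le] at hcon
  have hpos2 : 0 < v b ^ 2 := pow_pos hbpos 2
  have : 1 * v b ^ 2 < v (D.x (R - S)) * v b ^ 2 := mul_lt_mul_of_pos_right hcon hpos2
  rw [one_mul, h3] at this
  exact absurd hval (not_le.mpr this)

/-- `E₁` is closed under subtraction. -/
theorem inE1_sub (hβ : v D.β ≤ 1) (hγ : v D.γ ≤ 1) {P Q : G} (hP : InE1 D v P)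
    (hQ : InE1 D v Q) : InE1 D v (P - Q) := by
  by_cases hQ0 : Q = 0
  · rw [hQ0, sub_zero]; exact hP
  by_cases hP0 : P = 0
  · rw [hP0, zero_sub]; exact inE1_neg D v hQ
  have hQ' : 1 < v (D.x Q) := hQ.resolve_left hQ0
  have hP' : 1 < v (D.x P) := hP.resolve_left hP0
  by_cases h0 : P - Q = 0
  · exact Or.inl h0
  right
  by_contra hcon
  rw [not_lt] at hcon
  have hnQ0 : -Q ≠ 0 := neg_ne_zero.mpr hQ0
  have hnQ : 1 < v (D.x (-Q)) := by rw [D.x_neg]; exact hQ'
  have h := val_x_sub_le_one D v hβ hγ h0 hnQ0 hcon hnQ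
  have e : P - Q - -Q = P := by abel
  rw [e] at h
  exact absurd h (not_le.mpr hP')

theorem inE1_add (hβ : v D.β ≤ 1) (hγ : v D.γ ≤ 1) {P Q : G} (hP : InE1 D v P)
    (hQ : InE1 D v Q) : InE1 D v (P + Q) := by
  have := inE1_sub D v hβ hγ hP (inE1_neg D v hQ)
  rwa [sub_neg_eq_add] at this

theorem inE1_nsmul (hβ : v D.β ≤ 1) (hγ : v D.γ ≤ 1) {P : G} (hP : InE1 D v P) (n : ℕ) :
    InE1 D v (n • P) := by
  induction n with
  | zero => rw [zero_nsmul]; exact inE1_zero D v
  | succ n ih => rw [succ_nsmul]; exact inE1_add D v hβ hγ ih hP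

variable (τ : G →+ G) (σ : K →+* K)

/-- A point of `E₁` and its conjugate differ by a point of `E₁`. -/
theorem diff_of_inE1
    (hτx : ∀ P, P ≠ 0 → D.x (τ P) = σ (D.x P))
    (hσv : ∀ a, v (σ a) = v a)
    (hβ : v D.β ≤ 1) (hγ : v D.γ ≤ 1) {T : G} (hT : InE1 D v T) : InE1 D v (T - τ T) := by
  by_cases hT0 : T = 0
  · left; rw [hT0, map_zero, sub_zero]
  refine inE1_sub D v hβ hγ hT (Or.inr ?_)
  rw [hτx T hT0, hσv]
  exact hT.resolve_left hT0

/-- An integral point with nonsingular reduction and its conjugate differ by a point of `E₁`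
(the S05 argument `fixed_of_integral`, stopped before torsion-freeness of `E₁` is used). -/
theorem diff_of_integral
    (hτx : ∀ P, P ≠ 0 → D.x (τ P) = σ (D.x P)) (hτy : ∀ P, P ≠ 0 → D.y (τ P) = σ (D.y P))
    (hτ0 : ∀ P, P ≠ 0 → τ P ≠ 0)
    (hσ1 : ∀ a, v a ≤ 1 → v (σ a - a) < 1)
    (h2 : v 2 = 1)
    (hβ : v D.β ≤ 1) (hγ : v D.γ ≤ 1) (hdisc : v (D.β ^ 2 - 4 * D.γ) = 1)
    {T : G} (hT0 : T ≠ 0) (hx : v (D.x T) ≤ 1)
    (hcase : v D.γ = 1 ∨ v (D.x T) = 1) : InE1 D v (T - τ T) := by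
  suffices h : T = τ T ∨ 1 < v (D.x (T - τ T)) by
    rcases h with h | h
    · left; rw [← h, sub_self]
    · exact Or.inr h
  have hy : v (D.y T) ≤ 1 := val_y_le_one D v hT0 hβ hγ hx
  have hεx : v (σ (D.x T) - D.x T) < 1 := hσ1 _ hx
  have hεy : v (σ (D.y T) - D.y T) < 1 := hσ1 _ hy
  have hxQ : v (D.x (τ T)) ≤ 1 := by
    rw [hτx T hT0]
    have : σ (D.x T) = (σ (D.x T) - D.x T) + D.x T := by ring
    rw [this]; exact v.map_add_le hεx.le hx
  refine f2 D v h2 hβ hT0 (hτ0 T hT0) hx hxQ ?_ ?_ ?_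
  · rw [hτx T hT0, v.map_sub_swap]; exact hεx
  · rw [hτy T hT0, v.map_sub_swap]; exact hεy
  · rw [hτx T hT0, hτy T hT0]
    by_cases hy1 : v (D.y T) < 1
    · right
      have hf := fprime_unit v h2 hβ hdisc hx hy1 (D.eqn T hT0) hcase
      have : D.x T ^ 2 + D.x T * σ (D.x T) + σ (D.x T) ^ 2 + D.β * (D.x T + σ (D.x T)) + D.γ =
          (3 * D.x T ^ 2 + 2 * D.β * D.x T + D.γ) +
          (σ (D.x T) - D.x T) * (3 * D.x T + (σ (D.x T) - D.x T) + D.β) := by ring
      rw [this]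
      apply (v.map_add_eq_of_lt_left _).trans hf
      rw [hf, map_mul]
      have h3 : v (3 * D.x T + (σ (D.x T) - D.x T) + D.β) ≤ 1 := by
        have h31 : v (3 * D.x T) ≤ 1 := by
          rw [map_mul]
          have h33 : v (3 : K) ≤ 1 := by
            have : (3 : K) = ((3 : ℕ) : K) := by norm_num
            rw [this]; exact val_natCast_le_one v 3
          calc v 3 * v (D.x T) ≤ 1 * 1 := by gcongr
            _ = 1 := one_mul _
        exact v.map_add_le (v.map_add_le h31 hεx.le) hβ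
      calc v (σ (D.x T) - D.x T) * v (3 * D.x T + (σ (D.x T) - D.x T) + D.β)
          ≤ v (σ (D.x T) - D.x T) * 1 := by gcongr
        _ = v (σ (D.x T) - D.x T) := mul_one _
        _ < 1 := hεx
    · left
      have hy1' : v (D.y T) = 1 := le_antisymm hy (not_lt.mp hy1)
      have : D.y T + σ (D.y T) = 2 * D.y T + (σ (D.y T) - D.y T) := by ring
      rw [this]
      have h2y : v (2 * D.y T) = 1 := by rw [map_mul, h2, hy1', one_mul]
      exact (v.map_add_eq_of_lt_left (by rw [h2y]; exact hεy)).trans h2y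

/-- A point on a non-identity component whose valuation is that of a `σ`-fixed element and its
conjugate differ by a point of `E₁` (the S05 argument `fixed_of_open`). -/
theorem diff_of_open
    (hτx : ∀ P, P ≠ 0 → D.x (τ P) = σ (D.x P)) (hτy : ∀ P, P ≠ 0 → D.y (τ P) = σ (D.y P))
    (hτ0 : ∀ P, P ≠ 0 → τ P ≠ 0)
    (hσ1 : ∀ a, v a ≤ 1 → v (σ a - a) < 1)
    (h2 : v 2 = 1) {p : ℕ} (hp : p.Prime)
    (hβ : v D.β = 1)
    {T : G} (hT0 : T ≠ 0) (hγx : v D.γ < v (D.x T)) (hx1 : v (D.x T) < 1)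
    {w : K} (hw : σ w = w) (hwγ : v D.γ = v w ^ p)
    {i : ℕ} (hi : v (D.x T) ^ p = v D.γ ^ (2 * i)) : InE1 D v (T - τ T) := by
  suffices h : T = τ T ∨ 1 < v (D.x (T - τ T)) by
    rcases h with h | h
    · left; rw [← h, sub_self]
    · exact Or.inr h
  have hxpos : 0 < v (D.x T) := lt_of_le_of_lt zero_le hγx
  have hyx : v (D.y T) = v (D.x T) := val_y_eq_val_x D v hT0 hβ hγx hx1
  have hr : v (D.x T) = v (w ^ (2 * i)) := by
    apply pow_inj_of_ne_zero hp.ne_zero
    rw [hi, hwγ, map_pow, ← pow_mul, ← pow_mul, mul_comm]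
  have hσr : σ (w ^ (2 * i)) = w ^ (2 * i) := by rw [map_pow, hw]
  generalize w ^ (2 * i) = r at hr hσr
  have hr0 : r ≠ 0 := by
    intro h0; rw [h0, map_zero] at hr; rw [hr] at hxpos; exact lt_irrefl _ hxpos
  have key : ∀ a : K, v a = v r → v (σ a - a) < v r := by
    intro a ha
    have hu : v (a / r) ≤ 1 := by rw [map_div₀, ha, div_self (by rw [← hr]; exact hxpos.ne')]
    have h3 := hσ1 (a / r) hu
    have : σ a - a = r * (σ (a / r) - a / r) := by
      rw [map_div₀, hσr]; field_simp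
    rw [this, map_mul]
    calc v r * v (σ (a / r) - a / r) < v r * 1 :=
          mul_lt_mul_of_pos_left h3 (by rw [← hr]; exact hxpos)
      _ = v r := mul_one _
  refine f2_comp D v h2 hβ.le hT0 (hτ0 T hT0) hx1.le hyx ?_ ?_
  · rw [hτx T hT0, v.map_sub_swap, hr]; exact key _ hr
  · rw [hτy T hT0, v.map_sub_swap, hr]; exact key _ (hyx.trans hr)

/-- **Main local statement on the Kummer model.** For `T` of odd prime order `p` (no
assumption on `v p`), the point `T - τ T` lies in the kernel of reduction, both for good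
reduction (`v γ = 1`) and for multiplicative reduction with `v γ` a `p`-th power of the
valuation of a `σ`-fixed element. -/
theorem diff_mem_E1
    (hτx : ∀ P, P ≠ 0 → D.x (τ P) = σ (D.x P)) (hτy : ∀ P, P ≠ 0 → D.y (τ P) = σ (D.y P))
    (hτ0 : ∀ P, P ≠ 0 → τ P ≠ 0)
    (hσ1 : ∀ a, v a ≤ 1 → v (σ a - a) < 1)
    (hσv : ∀ a, v (σ a) = v a)
    (h2 : v 2 = 1) (p : ℕ) (hp : p.Prime) (hp2 : p ≠ 2)
    (hβ : v D.β ≤ 1) (hγ : v D.γ ≤ 1) (hdisc : v (D.β ^ 2 - 4 * D.γ) = 1) (hγ0 : D.γ ≠ 0)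
    (hcase : v D.γ = 1 ∨ (v D.β = 1 ∧ v D.γ < 1 ∧ ∃ w : K, σ w = w ∧ v D.γ = v w ^ p))
    (T : G) (hT : p • T = 0) : InE1 D v (T - τ T) := by
  by_cases hT0 : T = 0
  · left; rw [hT0, map_zero, sub_zero]
  rcases lt_or_ge 1 (v (D.x T)) with hbig | hx
  · exact diff_of_inE1 D v τ σ hτx hσv hβ hγ (Or.inr hbig)
  rcases hcase with hg | ⟨hβ1, hγ1, w, hw, hwγ⟩
  · exact diff_of_integral D v τ σ hτx hτy hτ0 hσ1 h2 hβ hγ hdisc hT0 hx (Or.inl hg)
  rcases lt_or_eq_of_le hx with hx1 | hx1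
  · rcases lt_or_ge (v D.γ) (v (D.x T)) with hγx | hγx
    · obtain ⟨i, hi⟩ := ValEnd.torsion_val D v h2 hβ1 hγ1 hγ0 hp hp2 hT0 hT hγx hx1
      exact diff_of_open D v τ σ hτx hτy hτ0 hσ1 h2 hp hβ1 hT0 hγx hx1 hw hwγ hi
    · -- deep case: `2 • T` is integral with nonsingular reduction, or lies in `E₁`
      have hp3 : 3 ≤ p := by have := hp.two_le; omega
      have hγpos : 0 < v D.γ := v.pos_iff.mpr hγ0
      have hy0 : D.y T ≠ 0 := y_ne_zero_of_torsion D hp hp2 hT0 hT
      have h2T0 : T + T ≠ 0 := by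
        rw [← two_nsmul]; exact nsmul_ne_zero_of_lt hp hT0 hT (by norm_num) (by omega)
      have hd := D.dbl_x T hT0 hy0
      have h4 : v (4 : K) = 1 := by
        have : (4 : K) = 2 * 2 := by norm_num
        rw [this, map_mul, h2, one_mul]
      have hnum : v (D.x T ^ 2 - D.γ) = v D.γ := by
        apply v.map_sub_eq_of_lt_right
        rw [map_pow, sq]
        calc v (D.x T) * v (D.x T) ≤ v D.γ * v D.γ := by gcongr
          _ < v D.γ * 1 := mul_lt_mul_of_pos_left hγ1 hγpos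
          _ = v D.γ := mul_one _
      have hden : v (D.y T) ^ 2 ≤ v D.γ ^ 2 := by
        have e : D.y T ^ 2 = D.x T * (D.x T ^ 2 + D.β * D.x T + D.γ) := by
          rw [D.eqn T hT0]; ring
        have h3 := congrArg v e
        rw [map_pow, map_mul] at h3
        rw [h3, sq (v D.γ)]
        have h5 : v (D.x T ^ 2 + D.β * D.x T + D.γ) ≤ v D.γ := by
          refine v.map_add_le (v.map_add_le ?_ ?_) le_rfl
          · rw [map_pow, sq]
            calc v (D.x T) * v (D.x T) ≤ v D.γ * 1 := by gcongr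
              _ = v D.γ := mul_one _
          · rw [map_mul, hβ1, one_mul]; exact hγx
        gcongr
      have h6 := congrArg v hd
      rw [map_mul, map_mul, h4, one_mul, map_pow, map_pow, hnum] at h6
      have hx2 : 1 ≤ v (D.x (T + T)) := by
        by_contra hlt
        rw [not_le] at hlt
        have hypos : 0 < v (D.y T) ^ 2 := pow_pos (v.pos_iff.mpr hy0) 2
        have : v (D.x (T + T)) * v (D.y T) ^ 2 < 1 * v (D.y T) ^ 2 :=
          mul_lt_mul_of_pos_right hlt hypos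
        rw [h6, one_mul] at this
        exact absurd hden (not_le.mpr this)
      have hS : InE1 D v ((T + T) - τ (T + T)) := by
        rcases lt_or_eq_of_le hx2 with h | h
        · exact diff_of_inE1 D v τ σ hτx hσv hβ hγ (Or.inr h)
        · exact diff_of_integral D v τ σ hτx hτy hτ0 hσ1 h2 hβ hγ hdisc h2T0 h.symm.le
            (Or.inr h.symm)
      obtain ⟨k, hk⟩ : ∃ k, p = 2 * k + 1 := by
        rcases hp.eq_two_or_odd' with h | h
        · exact absurd h hp2
        · exact h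
      have hT' : T = (k + 1) • (T + T) := by
        rw [← two_nsmul, ← mul_nsmul]
        have : 2 * (k + 1) = p + 1 := by omega
        rw [this, add_nsmul, hT, zero_add, one_nsmul]
      have e : T - τ T = (k + 1) • ((T + T) - τ (T + T)) := by
        rw [smul_sub, ← map_nsmul, ← hT']
      rw [e]
      exact inE1_nsmul D v hβ hγ hS (k + 1)
  · exact diff_of_integral D v τ σ hτx hτy hτ0 hσ1 h2 hβ hγ hdisc hT0 hx (Or.inr hx1)

end

end Fermat.Agent.S13.LocalP
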