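/-
S13, package [Tp] (local analysis at `p`), layer 1: a polynomial with integral coefficients
has `leadingCoeff * ∏ (roots of valuation > 1)` integral.  Mathlib only.
-/
import Mathlib

set_option autoImplicit false

namespace Fermat.Agent.S13.LocalP

open Polynomial

variable {K Γ₀ : Type*} [Field K] [LinearOrderedCommGroupWithZero Γ₀] (v : Valuation K Γ₀)

/-- Dividing a polynomial with integral coefficients by `X - ρ`, where `ρ` is a root of valuation
`> 1`, and multiplying by `ρ`, keeps the coefficients integral. -/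
theorem exists_root_quot {f : K[X]} (hf : ∀ i, v (f.coeff i) ≤ 1) {ρ : K} (hρ : f.IsRoot ρ)
    (hv : 1 < v ρ) :
    ∃ g : K[X], (∀ i, v (g.coeff i) ≤ 1) ∧ C ρ * f = (X - C ρ) * g ∧
      g.leadingCoeff = ρ * f.leadingCoeff := by
  have hρ0 : ρ ≠ 0 := by
    rintro rfl
    simp at hv
  have hvρ0 : v ρ ≠ 0 := (v.ne_zero_iff).mpr hρ0
  set q := f /ₘ (X - C ρ) with hq
  have hfq : (X - C ρ) * q = f := mul_divByMonic_eq_iff_isRoot.mpr hρ
  have hc0 : f.coeff 0 = -(ρ * q.coeff 0) := by
    rw [← hfq]
    simp [mul_coeff_zero]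
  have hcs : ∀ n, f.coeff (n + 1) = q.coeff n - ρ * q.coeff (n + 1) := by
    intro n
    rw [← hfq, coeff_X_sub_C_mul]
  have key : ∀ n, v (ρ * q.coeff n) ≤ 1 := by
    intro n
    induction n with
    | zero =>
      have : ρ * q.coeff 0 = -f.coeff 0 := by rw [hc0]; ring
      rw [this, Valuation.map_neg]
      exact hf 0
    | succ n ih =>
      have h1 : ρ * q.coeff (n + 1) = q.coeff n - f.coeff (n + 1) := by rw [hcs n]; ring
      rw [h1]
      refine v.map_sub_le ?_ (hf _)
      rw [map_mul] at ih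
      by_contra hcon
      rw [not_le] at hcon
      have : 1 * 1 < v ρ * v (q.coeff n) := mul_lt_mul'' hv hcon zero_le_one zero_le_one
      rw [one_mul] at this
      exact absurd ih (not_le.mpr this)
  refine ⟨C ρ * q, ?_, ?_, ?_⟩
  · intro i
    rw [coeff_C_mul]
    exact key i
  · rw [← hfq]; ring
  · have h1 : f.leadingCoeff = q.leadingCoeff := by
      rw [← hfq, leadingCoeff_mul, leadingCoeff_X_sub_C, one_mul]
    rw [leadingCoeff_mul, leadingCoeff_C, h1]

/-- For a polynomial `f` with integral coefficients, `leadingCoeff f * ∏ ρ ∈ s, ρ` is integral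
for every finite set `s` of roots of valuation `> 1`. -/
theorem val_leadingCoeff_mul_prod_le_one (s : Finset K) :
    ∀ f : K[X], (∀ i, v (f.coeff i) ≤ 1) → (∀ ρ ∈ s, f.IsRoot ρ ∧ 1 < v ρ) →
      v (f.leadingCoeff * ∏ ρ ∈ s, ρ) ≤ 1 := by
  classical
  induction s using Finset.induction_on with
  | empty =>
    intro f hf _
    simp only [Finset.prod_empty, mul_one]
    exact hf _
  | insert a s ha ih =>
    intro f hf hs
    obtain ⟨hra, hva⟩ := hs a (Finset.mem_insert_self a s)
    obtain ⟨g, hg, hfg, hlc⟩ := exists_root_quot v hf hra hva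
    have ha0 : a ≠ 0 := by
      rintro rfl
      simp at hva
    have hroots : ∀ ρ ∈ s, g.IsRoot ρ ∧ 1 < v ρ := by
      intro ρ hρ
      obtain ⟨hr, hv'⟩ := hs ρ (Finset.mem_insert_of_mem hρ)
      refine ⟨?_, hv'⟩
      have hne : ρ ≠ a := fun h => ha (h ▸ hρ)
      have h1 := congrArg (Polynomial.eval ρ) hfg
      simp only [eval_mul, eval_C, eval_sub, eval_X] at h1
      rw [IsRoot.def] at hr
      rw [hr, mul_zero] at h1
      rcases mul_eq_zero.mp h1.symm with h2 | h2
      · exact absurd (sub_eq_zero.mp h2) hne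
      · exact h2
    have := ih g hg hroots
    rw [hlc] at this
    rw [Finset.prod_insert ha]
    have e : f.leadingCoeff * (a * ∏ ρ ∈ s, ρ) = a * f.leadingCoeff * ∏ ρ ∈ s, ρ := by ring
    rw [e]
    exact this

end Fermat.Agent.S13.LocalP
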