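import Mathlib
import Fermat.Agent.S05.ValMain

set_option autoImplicit false

/-!
# S13, local at `p`: the kernel of reduction and the "moved by inertia" step

Abstract `KummerData` layer (leaf L1 of the `[Tp]` package).

* `e1_sub`, `e1_nsmul`: the points with `1 < v x` (together with `0`) form a subgroup.
* `moved_aux`: the S05 engine `kummer_fixed_aux` with its last step removed (no `v p = 1`):
  for a torsion point `T` and an "inertia" endomorphism `τ`, the point `T - τ T` lies in the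
  kernel of reduction.
-/

namespace Fermat.Agent.S13.LocalP

open Fermat.Agent.S05

section
variable {G K Γ₀ : Type*} [AddCommGroup G] [Field K] [LinearOrderedCommGroupWithZero Γ₀]
  (D : S05.KummerData G K) (v : Valuation K Γ₀) (τ : G →+ G) (σ : K →+* K)

/-- The kernel of reduction is closed under subtraction. -/
theorem e1_sub (hβ : v D.β ≤ 1) (hγ : v D.γ ≤ 1) {P Q : G} (hP : P ≠ 0) (hQ : Q ≠ 0)
    (hxP : 1 < v (D.x P)) (hxQ : 1 < v (D.x Q)) : P - Q = 0 ∨ 1 < v (D.x (P - Q)) := by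
  by_cases hne : D.x P = D.x Q
  · rcases D.eq_or_eq_neg_of_x_eq hP hQ hne with h | h
    · left; rw [h, sub_self]
    · have hPQ : P - Q = P + P := by rw [h]; abel
      by_cases hy0 : D.y P = 0
      · left
        have h1 : P = -P :=
          D.inj P (-P) hP (neg_ne_zero.mpr hP) (D.x_neg P).symm (by rw [D.y_neg, hy0, neg_zero])
        rw [hPQ]; nth_rewrite 2 [h1]; exact add_neg_cancel P
      · right
        rw [hPQ]
        obtain ⟨hX2, hle⟩ := f1_dbl v hβ hγ hxP (D.eqn P hP) (D.dbl_x P hP hy0)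
        have hω1 : v (D.x P)⁻¹ < 1 := val_inv_lt_one v hxP
        have h4 : v (4 * (D.x P)⁻¹) < 1 := by
          rw [map_mul]
          have h4' : v (4 : K) ≤ 1 := by exact_mod_cast val_natCast_le_one v 4
          calc v 4 * v (D.x P)⁻¹ ≤ 1 * v (D.x P)⁻¹ := by gcongr
            _ = v (D.x P)⁻¹ := one_mul _
            _ < 1 := hω1
        have h5 : v ((D.x (P + P))⁻¹ - 4 * (D.x P)⁻¹) < 1 :=
          lt_of_le_of_lt hle (pow_lt_one₀ zero_le hω1 (by norm_num))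
        have h6 : v (D.x (P + P))⁻¹ < 1 := by
          have : (D.x (P + P))⁻¹ = ((D.x (P + P))⁻¹ - 4 * (D.x P)⁻¹) + 4 * (D.x P)⁻¹ := by ring
          rw [this]; exact v.map_add_lt h5 h4
        exact (v.one_lt_val_iff hX2).mpr h6
  · right
    have hP0 : D.x P ≠ 0 := ne_zero_of_one_lt v hxP
    have hQ0 : D.x Q ≠ 0 := ne_zero_of_one_lt v hxQ
    have hw1 : v (D.x P)⁻¹ < 1 := val_inv_lt_one v hxP
    have hω1 : v (D.x Q)⁻¹ < 1 := val_inv_lt_one v hxQ
    have hprod := D.prod_x hP hQ hne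
    have hsum := D.sum_x hP hQ hne
    have hu : v (1 - D.γ * (D.x P)⁻¹ * (D.x Q)⁻¹) = 1 := by
      apply v.map_one_sub_of_lt
      rw [map_mul, map_mul]
      calc v D.γ * v (D.x P)⁻¹ * v (D.x Q)⁻¹ ≤ 1 * 1 * v (D.x Q)⁻¹ := by gcongr
        _ = v (D.x Q)⁻¹ := by simp
        _ < 1 := hω1
    have hu0 : 1 - D.γ * (D.x P)⁻¹ * (D.x Q)⁻¹ ≠ 0 := by
      intro h0; rw [h0] at hu; simp at hu
    have hne2 : D.x P * D.x Q - D.γ ≠ 0 := by
      have : D.x P * D.x Q - D.γ = D.x P * D.x Q * (1 - D.γ * (D.x P)⁻¹ * (D.x Q)⁻¹) := by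
        field_simp
      rw [this]; exact mul_ne_zero (mul_ne_zero hP0 hQ0) hu0
    have hXm : D.x (P - Q) ≠ 0 := by
      intro h0; rw [h0, mul_zero, zero_mul] at hprod; exact (pow_ne_zero 2 hne2) hprod.symm
    obtain ⟨hXp, hle⟩ := f1_step v hβ hγ hxQ hxP hXm hne hprod hsum
    have hδ : D.x P - D.x Q ≠ 0 := sub_ne_zero.mpr hne
    -- the sum of the inverses is small
    have hS : v ((D.x (P + Q))⁻¹ + (D.x (P - Q))⁻¹) < 1 := by
      have h2' : v (2 * ((D.x Q)⁻¹ + (D.x P)⁻¹)) < 1 := by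
        rw [map_mul]
        have h2'' : v (2 : K) ≤ 1 := by exact_mod_cast val_natCast_le_one v 2
        calc v 2 * v ((D.x Q)⁻¹ + (D.x P)⁻¹) ≤ 1 * v ((D.x Q)⁻¹ + (D.x P)⁻¹) := by gcongr
          _ = v ((D.x Q)⁻¹ + (D.x P)⁻¹) := one_mul _
          _ < 1 := v.map_add_lt hω1 hw1
      have h3 : v ((D.x (P + Q))⁻¹ + (D.x (P - Q))⁻¹ - 2 * ((D.x Q)⁻¹ + (D.x P)⁻¹)) < 1 := by
        refine lt_of_le_of_lt hle ?_
        calc v (D.x P)⁻¹ * v (D.x Q)⁻¹ ≤ 1 * v (D.x Q)⁻¹ := by gcongr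
          _ = v (D.x Q)⁻¹ := one_mul _
          _ < 1 := hω1
      have : (D.x (P + Q))⁻¹ + (D.x (P - Q))⁻¹ =
          ((D.x (P + Q))⁻¹ + (D.x (P - Q))⁻¹ - 2 * ((D.x Q)⁻¹ + (D.x P)⁻¹)) +
            2 * ((D.x Q)⁻¹ + (D.x P)⁻¹) := by ring
      rw [this]; exact v.map_add_lt h3 h2'
    -- the product of the inverses is small
    have hPi : v (D.x (P + Q))⁻¹ * v (D.x (P - Q))⁻¹ < 1 := by
      have key : (D.x (P + Q))⁻¹ * (D.x (P - Q))⁻¹ *
          (1 - D.γ * (D.x P)⁻¹ * (D.x Q)⁻¹) ^ 2 = ((D.x Q)⁻¹ - (D.x P)⁻¹) ^ 2 := by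
        have h1 : (D.x (P + Q))⁻¹ * (D.x (P - Q))⁻¹ =
            (D.x P - D.x Q) ^ 2 / (D.x P * D.x Q - D.γ) ^ 2 := by
          rw [← hprod]; field_simp
        rw [h1]; field_simp
      have h7 := congrArg v key
      rw [map_mul, map_pow, hu, one_pow, mul_one, map_mul, map_pow] at h7
      rw [h7]
      exact pow_lt_one₀ zero_le (v.map_sub_lt hω1 hw1) (by norm_num)
    by_contra hcon
    have h8 : 1 ≤ v (D.x (P - Q))⁻¹ := by
      by_contra h9
      rw [not_le] at h9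
      exact hcon ((v.one_lt_val_iff hXm).mpr h9)
    have h10 : v (D.x (P + Q))⁻¹ < 1 := by
      by_contra h11
      rw [not_lt] at h11
      have : (1 : Γ₀) * 1 ≤ v (D.x (P + Q))⁻¹ * v (D.x (P - Q))⁻¹ := by gcongr
      rw [one_mul] at this
      exact absurd hPi (not_lt.mpr this)
    have h12 : v (D.x (P - Q))⁻¹ < 1 := by
      have : (D.x (P - Q))⁻¹ =
          ((D.x (P + Q))⁻¹ + (D.x (P - Q))⁻¹) - (D.x (P + Q))⁻¹ := by ring
      rw [this]; exact v.map_sub_lt hS h10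
    exact absurd h8 (not_le.mpr h12)

/-- The kernel of reduction is closed under multiples. -/
theorem e1_nsmul (hβ : v D.β ≤ 1) (hγ : v D.γ ≤ 1) {R : G} (hR : R ≠ 0)
    (hxR : 1 < v (D.x R)) (m : ℕ) : m • R = 0 ∨ 1 < v (D.x (m • R)) := by
  induction m with
  | zero => left; exact zero_nsmul R
  | succ m ih =>
    have e : (m + 1) • R = m • R - (-R) := by rw [succ_nsmul, sub_neg_eq_add]
    rcases ih with h | h
    · right; rw [succ_nsmul, h, zero_add]; exact hxR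
    · by_cases h0 : m • R = 0
      · right; rw [succ_nsmul, h0, zero_add]; exact hxR
      · rw [e]
        exact e1_sub D v hβ hγ h0 (neg_ne_zero.mpr hR) h (by rw [D.x_neg]; exact hxR)

/-- Integral points with nonsingular reduction are moved by inertia inside the kernel of
reduction (no torsion hypothesis needed). -/
lemma moved_of_integral
    (hτx : ∀ P, P ≠ 0 → D.x (τ P) = σ (D.x P)) (hτy : ∀ P, P ≠ 0 → D.y (τ P) = σ (D.y P))
    (hτ0 : ∀ P, P ≠ 0 → τ P ≠ 0)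
    (hσ1 : ∀ a, v a ≤ 1 → v (σ a - a) < 1)
    (h2 : v 2 = 1)
    (hβ : v D.β ≤ 1) (hγ : v D.γ ≤ 1) (hdisc : v (D.β ^ 2 - 4 * D.γ) = 1)
    {T : G} (hT0 : T ≠ 0) (hx : v (D.x T) ≤ 1)
    (hcase : v D.γ = 1 ∨ v (D.x T) = 1) : T = τ T ∨ 1 < v (D.x (T - τ T)) := by
  have hy : v (D.y T) ≤ 1 := val_y_le_one D v hT0 hβ hγ hx
  have hεx : v (σ (D.x T) - D.x T) < 1 := hσ1 _ hx
  have hεy : v (σ (D.y T) - D.y T) < 1 := hσ1 _ hy
  have hxQ : v (D.x (τ T)) ≤ 1 := by
    rw [hτx T hT0]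
    have : σ (D.x T) = (σ (D.x T) - D.x T) + D.x T := by ring
    rw [this]; exact v.map_add_le hεx.le hx
  refine f2 D v h2 hβ hT0 (hτ0 T hT0) hx hxQ ?_ ?_ ?_
  · rw [hτx T hT0, v.map_sub_swap]; exact hεx
  · rw [hτy T hT0, v.map_sub_swap]; exact hεy
  · rw [hτx T hT0, hτy T hT0]
    by_cases hy1 : v (D.y T) < 1
    · right
      have hf := fprime_unit v h2 hβ hdisc hx hy1 (D.eqn T hT0) hcase
      have : D.x T ^ 2 + D.x T * σ (D.x T) + σ (D.x T) ^ 2 + D.β * (D.x T + σ (D.x T)) + D.γ =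
          (3 * D.x T ^ 2 + 2 * D.β * D.x T + D.γ) +
          (σ (D.x T) - D.x T) * (3 * D.x T + (σ (D.x T) - D.x T) + D.β) := by ring
      rw [this]
      apply (v.map_add_eq_of_lt_left _).trans hf
      rw [hf, map_mul]
      have h3 : v (3 * D.x T + (σ (D.x T) - D.x T) + D.β) ≤ 1 := by
        have : 3 * D.x T + (σ (D.x T) - D.x T) + D.β ∈ v.integer := by
          have hxi := mem_int v hx
          have hβi := mem_int v hβ
          have hεi := mem_int v hεx.le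
          clear hf this hdisc hcase hεx hεy hxQ hτx hτy
          generalize σ (D.x T) - D.x T = ε at *
          aesop
        exact le_one_of_mem v this
      calc v (σ (D.x T) - D.x T) * v (3 * D.x T + (σ (D.x T) - D.x T) + D.β)
          ≤ v (σ (D.x T) - D.x T) * 1 := by gcongr
        _ = v (σ (D.x T) - D.x T) := mul_one _
        _ < 1 := hεx
    · left
      have hy1' : v (D.y T) = 1 := le_antisymm hy (not_lt.mp hy1)
      have : D.y T + σ (D.y T) = 2 * D.y T + (σ (D.y T) - D.y T) := by ring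
      rw [this]
      have h2y : v (2 * D.y T) = 1 := by rw [map_mul, h2, hy1', one_mul]
      exact (v.map_add_eq_of_lt_left (by rw [h2y]; exact hεy)).trans h2y

/-- Points on a non-identity component whose valuation is that of a `σ`-fixed element are
moved by inertia inside the kernel of reduction. -/
lemma moved_of_open
    (hτx : ∀ P, P ≠ 0 → D.x (τ P) = σ (D.x P)) (hτy : ∀ P, P ≠ 0 → D.y (τ P) = σ (D.y P))
    (hτ0 : ∀ P, P ≠ 0 → τ P ≠ 0)
    (hσ1 : ∀ a, v a ≤ 1 → v (σ a - a) < 1)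
    (h2 : v 2 = 1) {p : ℕ} (hp0 : p ≠ 0)
    (hβ : v D.β = 1)
    {T : G} (hT0 : T ≠ 0) (hγx : v D.γ < v (D.x T)) (hx1 : v (D.x T) < 1)
    {w : K} (hw : σ w = w) (hwγ : v D.γ = v w ^ p)
    {i : ℕ} (hi : v (D.x T) ^ p = v D.γ ^ (2 * i)) : T = τ T ∨ 1 < v (D.x (T - τ T)) := by
  have hxpos : 0 < v (D.x T) := lt_of_le_of_lt zero_le hγx
  have hyx : v (D.y T) = v (D.x T) := val_y_eq_val_x D v hT0 hβ hγx hx1
  -- the valuation of `x` is that of the `σ`-fixed element `r = w ^ (2 * i)`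
  have hr : v (D.x T) = v (w ^ (2 * i)) := by
    apply pow_inj_of_ne_zero hp0
    rw [hi, hwγ, map_pow, ← pow_mul, ← pow_mul, mul_comm]
  have hσr : σ (w ^ (2 * i)) = w ^ (2 * i) := by rw [map_pow, hw]
  generalize w ^ (2 * i) = r at hr hσr
  have hr0 : r ≠ 0 := by
    intro h0; rw [h0, map_zero] at hr; rw [hr] at hxpos; exact lt_irrefl _ hxpos
  have key : ∀ a : K, v a = v r → v (σ a - a) < v r := by
    intro a ha
    have hu : v (a / r) ≤ 1 := by rw [map_div₀, ha, div_self (by rw [← hr]; exact hxpos.ne')]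
    have h3 := hσ1 (a / r) hu
    have : σ a - a = r * (σ (a / r) - a / r) := by
      rw [map_div₀, hσr]; field_simp
    rw [this, map_mul]
    calc v r * v (σ (a / r) - a / r) < v r * 1 :=
          mul_lt_mul_of_pos_left h3 (by rw [← hr]; exact hxpos)
      _ = v r := mul_one _
  refine f2_comp D v h2 hβ.le hT0 (hτ0 T hT0) hx1.le hyx ?_ ?_
  · rw [hτx T hT0, v.map_sub_swap, hr]; exact key _ hr
  · rw [hτy T hT0, v.map_sub_swap, hr]; exact key _ (hyx.trans hr)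

/-- Torsion points close to the node-side 2-torsion point are moved by inertia inside the
kernel of reduction. -/
lemma moved_of_deep
    (hτx : ∀ P, P ≠ 0 → D.x (τ P) = σ (D.x P)) (hτy : ∀ P, P ≠ 0 → D.y (τ P) = σ (D.y P))
    (hτ0 : ∀ P, P ≠ 0 → τ P ≠ 0)
    (hσ1 : ∀ a, v a ≤ 1 → v (σ a - a) < 1)
    (h2 : v 2 = 1) {p : ℕ} (hp : p.Prime) (hp2 : p ≠ 2)
    (hβ : v D.β = 1) (hγ : v D.γ < 1) (hγ0 : D.γ ≠ 0) (hdisc : v (D.β ^ 2 - 4 * D.γ) = 1)
    {T : G} (hT0 : T ≠ 0) (hT : p • T = 0) (hxγ : v (D.x T) ≤ v D.γ) :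
    T = τ T ∨ 1 < v (D.x (T - τ T)) := by
  have hp3 : 3 ≤ p := by have := hp.two_le; omega
  have hγpos : 0 < v D.γ := v.pos_iff.mpr hγ0
  have hy0 : D.y T ≠ 0 := y_ne_zero_of_torsion D hp hp2 hT0 hT
  have h2T0 : T + T ≠ 0 := by
    rw [← two_nsmul]; exact nsmul_ne_zero_of_lt hp hT0 hT (by norm_num) (by omega)
  have hd := D.dbl_x T hT0 hy0
  have h4 : v (4 : K) = 1 := by
    have : (4 : K) = 2 * 2 := by norm_num
    rw [this, map_mul, h2, one_mul]
  -- valuation of the numerator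
  have hnum : v (D.x T ^ 2 - D.γ) = v D.γ := by
    apply v.map_sub_eq_of_lt_right
    rw [map_pow, sq]
    calc v (D.x T) * v (D.x T) ≤ v D.γ * v D.γ := by gcongr
      _ < v D.γ * 1 := mul_lt_mul_of_pos_left hγ hγpos
      _ = v D.γ := mul_one _
  -- valuation of the denominator
  have hden : v (D.y T) ^ 2 ≤ v D.γ ^ 2 := by
    have e : D.y T ^ 2 = D.x T * (D.x T ^ 2 + D.β * D.x T + D.γ) := by rw [D.eqn T hT0]; ring
    have h3 := congrArg v e
    rw [map_pow, map_mul] at h3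
    rw [h3, sq (v D.γ)]
    have h5 : v (D.x T ^ 2 + D.β * D.x T + D.γ) ≤ v D.γ := by
      refine v.map_add_le (v.map_add_le ?_ ?_) le_rfl
      · rw [map_pow, sq]
        calc v (D.x T) * v (D.x T) ≤ v D.γ * 1 := by gcongr; exact (hxγ.trans hγ.le)
          _ = v D.γ := mul_one _
      · rw [map_mul, hβ, one_mul]; exact hxγ
    gcongr
  have h6 := congrArg v hd
  rw [map_mul, map_mul, h4, one_mul, map_pow, map_pow, hnum] at h6
  have hx2 : 1 ≤ v (D.x (T + T)) := by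
    by_contra hlt
    rw [not_le] at hlt
    have hypos : 0 < v (D.y T) ^ 2 := pow_pos (v.pos_iff.mpr hy0) 2
    have : v (D.x (T + T)) * v (D.y T) ^ 2 < 1 * v (D.y T) ^ 2 :=
      mul_lt_mul_of_pos_right hlt hypos
    rw [h6, one_mul] at this
    exact absurd hden (not_le.mpr this)
  obtain ⟨k, hk⟩ : ∃ k, p = 2 * k + 1 := by
    rcases hp.eq_two_or_odd' with h | h
    · exact absurd h hp2
    · exact h
  have hT' : T = (k + 1) • (T + T) := by
    rw [← two_nsmul, ← mul_nsmul]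
    have : 2 * (k + 1) = p + 1 := by omega
    rw [this, add_nsmul, hT, zero_add, one_nsmul]
  have hxT1 : v (D.x T) < 1 := lt_of_le_of_lt hxγ hγ
  rcases lt_or_eq_of_le hx2 with hbig | heq
  · -- `2 T` in the kernel of reduction would force `T` into it
    exfalso
    rcases e1_nsmul D v hβ.le hγ.le h2T0 hbig (k + 1) with h | h
    · rw [← hT'] at h; exact hT0 h
    · rw [← hT'] at h; exact absurd h (not_lt.mpr hxT1.le)
  · have hmv : T + T = τ (T + T) ∨ 1 < v (D.x (T + T - τ (T + T))) :=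
      moved_of_integral D v τ σ hτx hτy hτ0 hσ1 h2 hβ.le hγ.le hdisc h2T0 heq.symm.le
        (Or.inr heq.symm)
    have hsub : T - τ T = (k + 1) • (T + T - τ (T + T)) := by
      rw [smul_sub, ← map_nsmul, ← hT']
    rcases hmv with h | h
    · left
      have : T - τ T = 0 := by rw [hsub, ← h, sub_self, smul_zero]
      exact sub_eq_zero.mp this
    · by_cases hS0 : T + T - τ (T + T) = 0
      · left
        have : T - τ T = 0 := by rw [hsub, hS0, smul_zero]
        exact sub_eq_zero.mp this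
      · rcases e1_nsmul D v hβ.le hγ.le hS0 h (k + 1) with h' | h'
        · left; rw [← hsub] at h'; exact sub_eq_zero.mp h'
        · right; rw [← hsub] at h'; exact h'

/-- The S05 engine `kummer_fixed_aux` without `v p = 1`: an inertia-like endomorphism `τ`
moves every `p`-torsion point inside the kernel of reduction. -/
theorem moved_aux
    (hτx : ∀ P, P ≠ 0 → D.x (τ P) = σ (D.x P)) (hτy : ∀ P, P ≠ 0 → D.y (τ P) = σ (D.y P))
    (hτ0 : ∀ P, P ≠ 0 → τ P ≠ 0)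
    (hσ1 : ∀ a, v a ≤ 1 → v (σ a - a) < 1)
    (hσv : ∀ a, v (σ a) = v a)
    (h2 : v 2 = 1) (p : ℕ) (hp : p.Prime) (hp2 : p ≠ 2)
    (hβ : v D.β ≤ 1) (hγ : v D.γ ≤ 1) (hdisc : v (D.β ^ 2 - 4 * D.γ) = 1) (hγ0 : D.γ ≠ 0)
    (hcase : v D.γ = 1 ∨ (v D.β = 1 ∧ v D.γ < 1 ∧ ∃ w : K, σ w = w ∧ v D.γ = v w ^ p))
    (hH : v D.β = 1 → v D.γ < 1 → ∀ T : G, T ≠ 0 → p • T = 0 → v D.γ < v (D.x T) →
      v (D.x T) < 1 → ∃ i : ℕ, v (D.x T) ^ p = v D.γ ^ (2 * i))
    (T : G) (hT : p • T = 0) : T = τ T ∨ 1 < v (D.x (T - τ T)) := by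
  by_cases hT0 : T = 0
  · left; rw [hT0, map_zero]
  rcases lt_or_ge 1 (v (D.x T)) with hbig | hx
  · -- `T` in the kernel of reduction: so is `τ T`
    have hτbig : 1 < v (D.x (τ T)) := by rw [hτx T hT0, hσv]; exact hbig
    rcases e1_sub D v hβ hγ hT0 (hτ0 T hT0) hbig hτbig with h | h
    · exact Or.inl (sub_eq_zero.mp h)
    · exact Or.inr h
  rcases hcase with hg | ⟨hβ1, hγ1, w, hw, hwγ⟩
  · exact moved_of_integral D v τ σ hτx hτy hτ0 hσ1 h2 hβ hγ hdisc hT0 hx (Or.inl hg)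
  · rcases lt_or_eq_of_le hx with hx1 | hx1
    · rcases lt_or_ge (v D.γ) (v (D.x T)) with hγx | hγx
      · obtain ⟨i, hi⟩ := hH hβ1 hγ1 T hT0 hT hγx hx1
        exact moved_of_open D v τ σ hτx hτy hτ0 hσ1 h2 hp.ne_zero hβ1 hT0 hγx hx1 hw hwγ hi
      · exact moved_of_deep D v τ σ hτx hτy hτ0 hσ1 h2 hp hp2 hβ1 hγ1 hγ0 hdisc hT0 hT hγx
    · exact moved_of_integral D v τ σ hτx hτy hτ0 hσ1 h2 hβ hγ hdisc hT0 hx (Or.inr hx1)

end

end Fermat.Agent.S13.LocalP
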